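/-
S55 / block EXIST, "Layer B" : the semi-local symbols attached to a number field `K ⊆ ℚ̄` containing
`μ_p`, defined by cohomology.  Definitions only.
`kumChar a : G_K → ℤ/p` (Kummer character), `kumClass a ∈ H^1(Map(X_K, ℤ/p))`,
`gsym a b = cor (symb (kumClass a) b) ∈ H^2(ℚ̄ˣ) = Br(ℚ)`, `qh L q a b = inv_q (loc_q (gsym a b))`.
-/
import Fermat.Agent.S55.Sym.Defs
import Fermat.Agent.S55.Dict.Glob
import Fermat.Agent.S55.Dict.Fix
import Fermat.Agent.S55.Arith.LocInterface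
import Fermat.Agent.S55.Exist.QDefs

set_option autoImplicit false

namespace Fermat.Agent.S55.Exist

open Fermat.Agent.S55.Sym Fermat.Agent.S55.Dict

/-! ### `ℚ/ℤ[p] → ℤ/p` -/

open Classical in
/-- A left inverse of `zmodToQZ p`. -/
noncomputable def fromQZ (p : ℕ) (c : QZ) : ZMod p :=
  if h : ∃ t : ZMod p, zmodToQZ p t = c then h.choose else 0

/-- **B3** (BR) over `ℚ`: the sum of the local invariants of a class of `Br(ℚ)[p]` vanishes. -/
def NeedB3Q (p : ℕ) (L : ∀ q : Nat.Primes, LocPkg p q) : Prop :=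
  ∀ x : Hsm lvlAll Kx 2, p • x = 0 → ∀ R : Finset Nat.Primes,
    (∀ q : Nat.Primes, q ∉ R → locA Kx q 2 x = 0) → ∑ q ∈ R, (L q).inv (locA Kx q 2 x) = 0

section

variable (p : ℕ) (K : Type) [Field K] [NumberField K] [Algebra K Qb] (ζ : K)

open Classical in
/-- The Kummer character of `a`: `g α = ζ^(kumChar a g) α` for `g ∈ G_K`, `α^p = a`. -/
noncomputable def kumChar (a : Kˣ) (g : GQ) : ZMod p :=
  if h : ∃ j : ZMod p, ∀ α : Qb, α ^ p = algebraMap K Qb (a : K) →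
      g α = algebraMap K Qb ζ ^ j.val * α then h.choose else 0

open Classical in
/-- The Kummer class of `a` in `H^1(Map(X_K, ℤ/p))`. -/
noncomputable def kumClass (a : Kˣ) : Hsm lvlAll (IndMod (GQ ⧸ fixG K) (Triv (ZMod p))) 1 :=
  if h : indCoc (fixG K) (kumChar p K ζ a) ∈ Zsm lvlAll (IndMod (GQ ⧸ fixG K) (Triv (ZMod p))) 1
  then Hsm.mk lvlAll _ 1 ⟨_, h⟩ else 0

/-- A global element as an invariant of `Map(X_K, ℚ̄ˣ)`. -/
noncomputable def globInv (b : Kˣ) : inv0 GQ (IndMod (GQ ⧸ fixG K) Kx) :=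
  ⟨glob K b, fun g => glob_mem_invD K ⊤ b g (Subgroup.mem_top g)⟩

@[simp] theorem coe_globInv (b : Kˣ) : (globInv K b : IndMod (GQ ⧸ fixG K) Kx) = glob K b := rfl

variable [NeZero p] [SmoothSet lvlAll (GQ ⧸ fixG K)]

/-- The global symbol over `K`, in `H^2(Map(X_K, ℚ̄ˣ)) = Br(K)`. -/
noncomputable def ksym (a b : Kˣ) : Hsm lvlAll (IndMod (GQ ⧸ fixG K) Kx) 2 :=
  symb lvlAll (kumClass p K ζ a) (globInv K b)

/-- Its corestriction to `Br(ℚ)`. -/
noncomputable def gsym (a b : Kˣ) : Hsm lvlAll Kx 2 :=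
  Hsm.map (IndMod.sum (GQ ⧸ fixG K) Kx) 2 (ksym p K ζ a b)

/-- The semi-local symbol at `q`. -/
noncomputable def qh (L : ∀ q : Nat.Primes, LocPkg p q) (q : Nat.Primes) (a b : Kˣ) : ZMod p :=
  fromQZ p ((L q).inv (locA Kx q 2 (gsym p K ζ a b)))

/-- The localisation at `q` of the Kummer class. -/
noncomputable def kumLoc (q : Nat.Primes) (a : Kˣ) :
    Hsm (lvlLoc q) (IndMod (ResSet (ιv q) (GQ ⧸ fixG K)) (Triv (ZMod p))) 1 :=
  locHTriv (GQ ⧸ fixG K) (LevelSys.Le.refl (lvlAll.comap (ιv q))) (ZMod p) 1 (kumClass p K ζ a)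

/-- The localisation at `q` of a global element. -/
noncomputable def globLoc (q : Nat.Primes) (b : Kˣ) :
    inv0 (Gv q) (IndMod (ResSet (ιv q) (GQ ⧸ fixG K)) (KL q)) :=
  toLocInv (ιv q) (GQ ⧸ fixG K) Kx (globInv K b)

end

end Fermat.Agent.S55.Exist
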