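/-
S55 / EXIST-K-1 : `fixG K` is an open subgroup of `GQ`; `GQ ⧸ fixG K` is a smooth `GQ`-set.
-/
import Fermat.Agent.S55.Exist.Kum.Defs
import Fermat.Agent.S55.Dict.Field
import Fermat.Agent.S55.Coh.IndMaps

set_option autoImplicit false

namespace Fermat.Agent.S55.Exist

open IsDedekindDomain NumberField
open Fermat.Agent.S55 Fermat.Agent.S55.Sym Fermat.Agent.S55.Dict Fermat.Agent.S55.Exist
open Fermat.Agent.S55.NIT (Pl)

section K1

variable (K : Type) [Field K] [NumberField K] [Algebra K Qb]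

theorem isOpen_fixG : lvlAll.IsOpen (fixG K) := Fermat.Agent.S55.Dict.isOpen_fixG K

instance smoothSet_quot_fixG : SmoothSet lvlAll (GQ ⧸ fixG K) :=
  SmoothSet.quotient lvlAll (isOpen_fixG K)

end K1

end Fermat.Agent.S55.Exist
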