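/-
S55 / EXIST, node EXIST-K-2 (task 1955, helper198): the Kummer character `kumChar p K ζ a` of
`a ∈ Kˣ`, for a number field `K ⊆ ℚ̄` containing a primitive `p`-th root of unity `ζ`.
-/
import Fermat.Agent.S55.Exist.Kum.Defs
import Fermat.Agent.S55.Arith.Smooth
import Fermat.Agent.S55.Exist.Kum.Open

set_option autoImplicit false
set_option linter.unusedSectionVars false

namespace Fermat.Agent.S55.Exist

open IsDedekindDomain NumberField
open Fermat.Agent.S55 Fermat.Agent.S55.Sym Fermat.Agent.S55.Dict Fermat.Agent.S55.Exist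
open Fermat.Agent.S55.NIT (Pl)

variable {p : ℕ} {K : Type} [Field K] [NumberField K] [Algebra K Qb] {ζ : K}

namespace KumCharAux

theorem prim (hζ : IsPrimitiveRoot ζ p) : IsPrimitiveRoot (algebraMap K Qb ζ) p :=
  hζ.map_of_injective (algebraMap K Qb).injective

theorem alg_ne_zero (a : Kˣ) : algebraMap K Qb (a : K) ≠ 0 := (map_ne_zero _).mpr a.ne_zero

theorem root_ne_zero (hp : p.Prime) (a : Kˣ) {α : Qb} (hα : α ^ p = algebraMap K Qb (a : K)) :
    α ≠ 0 := by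
  rintro rfl
  rw [zero_pow hp.ne_zero] at hα
  exact alg_ne_zero a hα.symm

theorem exists_root (hp : p.Prime) (a : Kˣ) : ∃ α : Qb, α ^ p = algebraMap K Qb (a : K) :=
  IsAlgClosed.exists_pow_nat_eq _ hp.pos

/-- two elements with the same `p`-th power differ by a power of `ζ`. -/
theorem exists_eq_pow_mul (hp : p.Prime) (hζ : IsPrimitiveRoot ζ p) {x y : Qb} (hy : y ≠ 0)
    (h : x ^ p = y ^ p) : ∃ i < p, x = algebraMap K Qb ζ ^ i * y := by
  have : NeZero p := ⟨hp.ne_zero⟩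
  have h1 : (x / y) ^ p = 1 := by
    rw [div_pow, h, div_self (pow_ne_zero _ hy)]
  obtain ⟨i, hi, hi'⟩ := (prim hζ).eq_pow_of_pow_eq_one h1
  exact ⟨i, hi, by rw [hi', div_mul_cancel₀ _ hy]⟩

theorem exists_char (hp : p.Prime) (hζ : IsPrimitiveRoot ζ p) (a : Kˣ) {g : GQ}
    (hg : g ∈ fixG K) : ∃ j : ZMod p, ∀ α : Qb, α ^ p = algebraMap K Qb (a : K) →
      g α = algebraMap K Qb ζ ^ j.val * α := by
  have : NeZero p := ⟨hp.ne_zero⟩
  obtain ⟨α₀, hα₀⟩ := exists_root hp a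
  have h0 := root_ne_zero hp a hα₀
  obtain ⟨i, hi, hgi⟩ := exists_eq_pow_mul (x := g α₀) hp hζ h0 (by rw [← map_pow, hα₀, hg])
  refine ⟨(i : ZMod p), fun α hα => ?_⟩
  rw [ZMod.val_natCast_of_lt hi]
  obtain ⟨m, -, hm⟩ := exists_eq_pow_mul (x := α) hp hζ h0 (by rw [hα, hα₀])
  rw [hm, map_mul, map_pow, hg, hgi]
  ring

theorem pow_val_add (hζ : IsPrimitiveRoot ζ p) (j j' : ZMod p) [NeZero p] :
    algebraMap K Qb ζ ^ (j + j').val = algebraMap K Qb ζ ^ j.val * algebraMap K Qb ζ ^ j'.val := by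
  rw [ZMod.val_add, ← pow_add, ← pow_eq_pow_mod _ (prim hζ).pow_eq_one]

end KumCharAux

open KumCharAux

theorem kumChar_spec (hp : p.Prime) (hζ : IsPrimitiveRoot ζ p) (a : Kˣ) {g : GQ} (hg : g ∈ fixG K)
    {α : Qb} (hα : α ^ p = algebraMap K Qb (a : K)) :
    g α = algebraMap K Qb ζ ^ (kumChar p K ζ a g).val * α := by
  have h := exists_char hp hζ a hg
  rw [kumChar, dif_pos h]
  exact h.choose_spec α hα

theorem kumChar_eq_of (hp : p.Prime) (hζ : IsPrimitiveRoot ζ p) (a : Kˣ) {g : GQ} (hg : g ∈ fixG K)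
    {α : Qb} (hα : α ^ p = algebraMap K Qb (a : K)) {j : ZMod p}
    (h : g α = algebraMap K Qb ζ ^ j.val * α) : kumChar p K ζ a g = j := by
  have : NeZero p := ⟨hp.ne_zero⟩
  have h1 := kumChar_spec hp hζ a hg hα
  rw [h] at h1
  have h2 := mul_right_cancel₀ (root_ne_zero hp a hα) h1
  exact (ZMod.val_injective p ((prim hζ).pow_inj (ZMod.val_lt _) (ZMod.val_lt _) h2)).symm

theorem kumChar_eq_zero_iff (hp : p.Prime) (hζ : IsPrimitiveRoot ζ p) (a : Kˣ) {g : GQ}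
    (hg : g ∈ fixG K) {α : Qb} (hα : α ^ p = algebraMap K Qb (a : K)) :
    kumChar p K ζ a g = 0 ↔ g α = α := by
  have : NeZero p := ⟨hp.ne_zero⟩
  constructor
  · intro h
    have h1 := kumChar_spec hp hζ a hg hα
    rwa [h, ZMod.val_zero, pow_zero, one_mul] at h1
  · intro h
    exact kumChar_eq_of hp hζ a hg hα (by rw [ZMod.val_zero, pow_zero, one_mul, h])

theorem kumChar_mul_group (hp : p.Prime) (hζ : IsPrimitiveRoot ζ p) (a : Kˣ) {g g' : GQ}
    (hg : g ∈ fixG K) (hg' : g' ∈ fixG K) :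
    kumChar p K ζ a (g * g') = kumChar p K ζ a g + kumChar p K ζ a g' := by
  have : NeZero p := ⟨hp.ne_zero⟩
  obtain ⟨α, hα⟩ := exists_root hp a
  refine kumChar_eq_of hp hζ a ((fixG K).mul_mem hg hg') hα ?_
  show g (g' α) = _
  rw [kumChar_spec hp hζ a hg' hα, map_mul, map_pow, hg, kumChar_spec hp hζ a hg hα,
    pow_val_add hζ]
  ring

theorem kumChar_mul (hp : p.Prime) (hζ : IsPrimitiveRoot ζ p) (a a' : Kˣ) {g : GQ}
    (hg : g ∈ fixG K) :
    kumChar p K ζ (a * a') g = kumChar p K ζ a g + kumChar p K ζ a' g := by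
  have : NeZero p := ⟨hp.ne_zero⟩
  obtain ⟨α, hα⟩ := exists_root hp a
  obtain ⟨α', hα'⟩ := exists_root hp a'
  refine kumChar_eq_of (α := α * α') hp hζ (a * a') hg
    (by rw [mul_pow, hα, hα', Units.val_mul, map_mul]) ?_
  rw [map_mul, kumChar_spec hp hζ a hg hα, kumChar_spec hp hζ a' hg hα', pow_val_add hζ]
  ring

theorem kumChar_pow (hp : p.Prime) (hζ : IsPrimitiveRoot ζ p) (c : Kˣ) {g : GQ} (hg : g ∈ fixG K) :
    kumChar p K ζ (c ^ p) g = 0 :=
  (kumChar_eq_zero_iff (α := algebraMap K Qb (c : K)) hp hζ (c ^ p) hg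
    (by rw [Units.val_pow_eq_pow_val, map_pow])).mpr (hg _)

theorem exists_level_kumChar (hp : p.Prime) (hζ : IsPrimitiveRoot ζ p) (a : Kˣ) :
    ∃ N ∈ lvlAll.carrier, N ≤ fixG K ∧ ∀ n ∈ N, kumChar p K ζ a n = 0 := by
  obtain ⟨α, hα⟩ := exists_root hp a
  obtain ⟨N₁, hN₁, hle₁⟩ := isOpen_fixG K
  obtain ⟨F, hf, hs, hx⟩ := exists_stable_finite α
  obtain ⟨N, hN, hle⟩ := lvlAll.directed N₁ hN₁ F.fixingSubgroup ⟨F, hf, hs, rfl⟩
  refine ⟨N, hN, fun n hn => hle₁ (hle hn).1, fun n hn => ?_⟩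
  exact (kumChar_eq_zero_iff hp hζ a (hle₁ (hle hn).1) hα).mpr
    ((IntermediateField.mem_fixingSubgroup_iff F n).1 (hle hn).2 _ hx)

namespace KumCharAux

theorem kumChar_one (hp : p.Prime) (hζ : IsPrimitiveRoot ζ p) (a : Kˣ) :
    kumChar p K ζ a 1 = 0 := by
  obtain ⟨α, hα⟩ := exists_root hp a
  exact (kumChar_eq_zero_iff hp hζ a (fixG K).one_mem hα).mpr rfl

theorem kumChar_pow_group (hp : p.Prime) (hζ : IsPrimitiveRoot ζ p) (a : Kˣ) {g : GQ}
    (hg : g ∈ fixG K) (k : ℕ) : kumChar p K ζ a (g ^ k) = k * kumChar p K ζ a g := by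
  induction k with
  | zero => rw [pow_zero, kumChar_one hp hζ, Nat.cast_zero, zero_mul]
  | succ k ih =>
    rw [pow_succ, kumChar_mul_group hp hζ a ((fixG K).pow_mem hg k) hg, ih]
    push_cast
    ring

end KumCharAux

theorem exists_kumChar_eq_one (hp : p.Prime) (hζ : IsPrimitiveRoot ζ p) (a : Kˣ)
    (ha : ∀ c : Kˣ, c ^ p ≠ a) : ∃ s₀ ∈ fixG K, kumChar p K ζ a s₀ = 1 := by
  have : Fact p.Prime := ⟨hp⟩
  obtain ⟨α, hα⟩ := exists_root hp a
  have hα0 := root_ne_zero hp a hα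
  have hmove : ∃ g ∈ fixG K, g α ≠ α := by
    by_contra hcon
    push Not at hcon
    obtain ⟨z, hz⟩ := exists_algebraMap_eq_of_fixed (K := K) α hcon
    have hz0 : z ≠ 0 := by
      rintro rfl
      rw [map_zero] at hz
      exact hα0 hz.symm
    refine ha (Units.mk0 z hz0) (Units.ext ?_)
    apply (algebraMap K Qb).injective
    rw [Units.val_pow_eq_pow_val, Units.val_mk0, map_pow, hz, hα]
  obtain ⟨g, hg, hgα⟩ := hmove
  have hj : kumChar p K ζ a g ≠ 0 := fun h => hgα ((kumChar_eq_zero_iff hp hζ a hg hα).mp h)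
  refine ⟨g ^ ((kumChar p K ζ a g)⁻¹).val, (fixG K).pow_mem hg _, ?_⟩
  rw [kumChar_pow_group hp hζ a hg, ZMod.natCast_zmod_val, inv_mul_cancel₀ hj]

end Fermat.Agent.S55.Exist
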