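/-
S55 / EXIST-K-4 : the Kummer class `kumClass a ∈ H^1(Map(X_K, ℤ/p))` and the cyclic cover
`X_L → X_K` for `L = K(a^(1/p))`.
-/
import Fermat.Agent.S55.Exist.Kum.Defs
import Fermat.Agent.S55.Exist.Kum.Char
import Fermat.Agent.S55.Sym.IndCoc
import Fermat.Agent.S55.Coh.Theta

set_option autoImplicit false

namespace Fermat.Agent.S55.Exist

open IsDedekindDomain NumberField
open Fermat.Agent.S55 Fermat.Agent.S55.Sym Fermat.Agent.S55.Dict Fermat.Agent.S55.Exist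

section K4

variable {p : ℕ} {K : Type} [Field K] [NumberField K] [Algebra K Qb] {ζ : K}

theorem indCoc_kumChar_mem_Zsm (hp : p.Prime) (hζ : IsPrimitiveRoot ζ p) (a : Kˣ) :
    indCoc (fixG K) (kumChar p K ζ a) ∈ Zsm lvlAll (IndMod (GQ ⧸ fixG K) (Triv (ZMod p))) 1 := by
  obtain ⟨N, hN, hNK, hN0⟩ := exists_level_kumChar hp hζ a
  exact indCoc_mem_Zsm (fixG K) (kumChar p K ζ a)
    (fun g hg g' hg' => kumChar_mul_group hp hζ a hg hg') hN hNK hN0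

theorem kumClass_eq_mk (hp : p.Prime) (hζ : IsPrimitiveRoot ζ p) (a : Kˣ) :
    kumClass p K ζ a = Hsm.mk lvlAll _ 1 ⟨_, indCoc_kumChar_mem_Zsm hp hζ a⟩ := by
  rw [kumClass, dif_pos (indCoc_kumChar_mem_Zsm hp hζ a)]

theorem kumClass_mul (hp : p.Prime) (hζ : IsPrimitiveRoot ζ p) (a a' : Kˣ) :
    kumClass p K ζ (a * a') = kumClass p K ζ a + kumClass p K ζ a' := by
  rw [kumClass_eq_mk hp hζ, kumClass_eq_mk hp hζ, kumClass_eq_mk hp hζ, ← map_add]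
  congr 1
  apply Subtype.ext
  show indCoc (fixG K) (kumChar p K ζ (a * a')) =
    indCoc (fixG K) (kumChar p K ζ a) + indCoc (fixG K) (kumChar p K ζ a')
  rw [← indCoc_add]
  exact indCoc_congr _ fun g hg => kumChar_mul hp hζ a a' hg

theorem kumClass_pow (hp : p.Prime) (hζ : IsPrimitiveRoot ζ p) (c : Kˣ) :
    kumClass p K ζ (c ^ p) = 0 := by
  rw [kumClass_eq_mk hp hζ, ← map_zero (Hsm.mk lvlAll (IndMod (GQ ⧸ fixG K) (Triv (ZMod p))) 1)]
  congr 1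
  apply Subtype.ext
  show indCoc (fixG K) (kumChar p K ζ (c ^ p)) = 0
  rw [← indCoc_zero (fixG K)]
  exact indCoc_congr _ fun g hg => kumChar_pow hp hζ c hg

variable {L : Type} [Field L] [NumberField L] [Algebra K L] [Algebra L Qb] [IsScalarTower K L Qb]

/-- `X_L → X_K` is a cyclic cover whose cocycle is the Kummer cocycle -/
theorem exists_cover_kum (hp : p.Prime) (hζ : IsPrimitiveRoot ζ p) (a : Kˣ)
    (ha : ∀ c : Kˣ, c ^ p ≠ a)
    (hL : ∀ g : GQ, g ∈ fixG L ↔ g ∈ fixG K ∧ kumChar p K ζ a g = 0) :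
    ∃ σ : (GQ ⧸ fixG L) →[GQ] (GQ ⧸ fixG L), CyclicCover (proj K L) σ p ∧
      IsCoverCocycle (proj K L) σ p (indCoc (fixG K) (kumChar p K ζ a)) := by
  have : NeZero p := ⟨hp.ne_zero⟩
  obtain ⟨s₀, hs₀, h1⟩ := exists_kumChar_eq_one hp hζ a ha
  have hψ : ∀ g ∈ fixG K, ∀ g' ∈ fixG K,
      kumChar p K ζ a (g * g') = kumChar p K ζ a g + kumChar p K ζ a g' :=
    fun g hg g' hg' => kumChar_mul_group hp hζ a hg hg'
  have hker : ∀ g ∈ fixG K, kumChar p K ζ a g = 0 ↔ g ∈ fixG L := fun g hg => by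
    rw [hL g]
    exact ⟨fun h => ⟨hg, h⟩, fun h => h.2⟩
  have hinv : kumChar p K ζ a s₀⁻¹ = - kumChar p K ζ a s₀ := by
    have h11 : kumChar p K ζ a 1 = 0 := by
      have h := hψ 1 (fixG K).one_mem 1 (fixG K).one_mem
      rw [mul_one] at h
      exact add_eq_left.1 h.symm
    have h := hψ s₀⁻¹ ((fixG K).inv_mem hs₀) s₀ hs₀
    rw [inv_mul_cancel, h11] at h
    exact eq_neg_of_add_eq_zero_left h.symm
  have hs : ∀ v ∈ fixG L, s₀⁻¹ * v * s₀ ∈ fixG L := by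
    intro v hv
    have hvK : v ∈ fixG K := fixG_le K L hv
    have hv0 : kumChar p K ζ a v = 0 := ((hL v).1 hv).2
    rw [← hker _ ((fixG K).mul_mem ((fixG K).mul_mem ((fixG K).inv_mem hs₀) hvK) hs₀),
      hψ _ ((fixG K).mul_mem ((fixG K).inv_mem hs₀) hvK) _ hs₀,
      hψ _ ((fixG K).inv_mem hs₀) _ hvK, hv0, hinv]
    ring
  exact ⟨cosetRight (fixG L) s₀ hs,
    cyclicCover_of_char (fixG_le K L) s₀ hs₀ hs p _ hψ hker h1,
    isCoverCocycle_indCoc (fixG_le K L) s₀ hs₀ hs p _ hψ hker h1⟩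

end K4

end Fermat.Agent.S55.Exist
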