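/-
S55 / EXIST, node EXIST-K-0 (owner helper80): `ℚ/ℤ[p] = ℤ/p`.
-/
import Fermat.Agent.S55.Exist.Kum.Defs

set_option autoImplicit false

namespace Fermat.Agent.S55.Exist

open IsDedekindDomain NumberField
open Fermat.Agent.S55 Fermat.Agent.S55.Sym Fermat.Agent.S55.Dict Fermat.Agent.S55.Exist
open Fermat.Agent.S55.NIT (Pl)

section K0

variable {p : ℕ}

theorem QZ_mk_eq_zero_iff (x : ℚ) : QZ.mk x = 0 ↔ ∃ n : ℤ, (n : ℚ) = x := by
  unfold QZ.mk
  rw [QuotientAddGroup.mk'_apply, QuotientAddGroup.eq_zero_iff, AddMonoidHom.mem_range]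
  rfl

theorem zmodToQZ_intCast (p : ℕ) (n : ℤ) :
    zmodToQZ p (n : ZMod p) = n • QZ.mk (1 / (p : ℚ)) := by
  unfold zmodToQZ
  rw [ZMod.lift_coe]
  rfl

theorem zmodToQZ_injective (hp : 0 < p) : Function.Injective (zmodToQZ p) := by
  have hpQ : (p : ℚ) ≠ 0 := by exact_mod_cast hp.ne'
  rw [injective_iff_map_eq_zero]
  intro t ht
  obtain ⟨n, rfl⟩ := ZMod.intCast_surjective t
  rw [zmodToQZ_intCast, ← map_zsmul, QZ_mk_eq_zero_iff] at ht
  obtain ⟨m, hm⟩ := ht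
  rw [ZMod.intCast_zmod_eq_zero_iff_dvd]
  refine ⟨m, ?_⟩
  have h3 : (n : ℚ) = ((p * m : ℤ) : ℚ) := by
    rw [zsmul_eq_mul, mul_one_div, eq_div_iff hpQ] at hm
    push_cast
    rw [← hm, mul_comm]
  exact_mod_cast h3

theorem exists_zmodToQZ_eq (hp : 0 < p) (c : QZ) (hc : p • c = 0) : ∃ t, zmodToQZ p t = c := by
  have hpQ : (p : ℚ) ≠ 0 := by exact_mod_cast hp.ne'
  obtain ⟨x, rfl⟩ : ∃ x : ℚ, QZ.mk x = c := QuotientAddGroup.mk'_surjective _ c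
  rw [← map_nsmul, QZ_mk_eq_zero_iff] at hc
  obtain ⟨n, hn⟩ := hc
  refine ⟨(n : ZMod p), ?_⟩
  rw [zmodToQZ_intCast, ← map_zsmul]
  congr 1
  rw [zsmul_eq_mul, hn, nsmul_eq_mul]
  field_simp

theorem zmodToQZ_fromQZ (hp : 0 < p) (c : QZ) (hc : p • c = 0) : zmodToQZ p (fromQZ p c) = c := by
  have h := exists_zmodToQZ_eq hp c hc
  rw [fromQZ, dif_pos h]
  exact h.choose_spec

theorem fromQZ_add (hp : 0 < p) (c c' : QZ) (hc : p • c = 0) (hc' : p • c' = 0) :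
    fromQZ p (c + c') = fromQZ p c + fromQZ p c' := by
  apply zmodToQZ_injective hp
  rw [map_add, zmodToQZ_fromQZ hp c hc, zmodToQZ_fromQZ hp c' hc',
    zmodToQZ_fromQZ hp (c + c') (by rw [smul_add, hc, hc', add_zero])]

theorem fromQZ_zero (hp : 0 < p) : fromQZ p 0 = 0 := by
  apply zmodToQZ_injective hp
  rw [map_zero, zmodToQZ_fromQZ hp 0 (smul_zero p)]

theorem fromQZ_eq_zero_iff (hp : 0 < p) (c : QZ) (hc : p • c = 0) : fromQZ p c = 0 ↔ c = 0 := by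
  constructor
  · intro h
    rw [← zmodToQZ_fromQZ hp c hc, h, map_zero]
  · rintro rfl
    exact fromQZ_zero hp

theorem fromQZ_sum (hp : 0 < p) {ι : Type*} (s : Finset ι) (c : ι → QZ) (hc : ∀ i ∈ s, p • c i = 0) :
    fromQZ p (∑ i ∈ s, c i) = ∑ i ∈ s, fromQZ p (c i) := by
  classical
  induction s using Finset.induction_on with
  | empty => simpa using fromQZ_zero hp
  | insert a s ha ih =>
    have h1 : ∀ i ∈ s, p • c i = 0 := fun i hi => hc i (Finset.mem_insert_of_mem hi)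
    rw [Finset.sum_insert ha, Finset.sum_insert ha,
      fromQZ_add hp _ _ (hc a (Finset.mem_insert_self a s))
        (by rw [Finset.smul_sum]; exact Finset.sum_eq_zero h1), ih h1]

theorem QZ_mk_one_div_ne_zero (hp : 1 < p) : QZ.mk (1 / (p : ℚ)) ≠ 0 := by
  have hpQ : (p : ℚ) ≠ 0 := by
    have : 0 < p := by omega
    exact_mod_cast this.ne'
  intro h
  rw [QZ_mk_eq_zero_iff] at h
  obtain ⟨n, hn⟩ := h
  rw [eq_div_iff hpQ] at hn
  have h1 : n * (p : ℤ) = 1 := by exact_mod_cast hn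
  have h2 : (p : ℤ) ∣ 1 := ⟨n, by rw [mul_comm]; exact h1.symm⟩
  have h3 := Int.le_of_dvd one_pos h2
  omega

theorem nsmul_QZ_mk_one_div (hp : 0 < p) : p • QZ.mk (1 / (p : ℚ)) = 0 := by
  have hpQ : (p : ℚ) ≠ 0 := by exact_mod_cast hp.ne'
  rw [← map_nsmul, QZ_mk_eq_zero_iff]
  refine ⟨1, ?_⟩
  rw [nsmul_eq_mul]
  field_simp
  norm_num

theorem QZ_mk_one_div_mem_pPrimary (hp : 0 < p) : QZ.mk (1 / (p : ℚ)) ∈ pPrimary p QZ :=
  ⟨1, by rw [pow_one]; exact nsmul_QZ_mk_one_div hp⟩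

end K0

end Fermat.Agent.S55.Exist
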