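/-
S55 / EXIST, node EXIST-K-10 : if `a` is not a local `p`-th power at some `v ∣ q`, the cover
`X_L → X_K` (`L = K(a^(1/p))`) is connected over some `G_q`-orbit.
-/
import Fermat.Agent.S55.Exist.Kum.Defs
import Fermat.Agent.S55.Dict.LocPow
import Fermat.Agent.S55.Dict.LocalGroup
import Fermat.Agent.S55.Dict.Split

set_option autoImplicit false
set_option linter.unusedSectionVars false

namespace Fermat.Agent.S55.Exist

open scoped Pointwise
open IsDedekindDomain NumberField
open Fermat.Agent.S55 Fermat.Agent.S55.Sym Fermat.Agent.S55.Dict Fermat.Agent.S55.Exist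
open Fermat.Agent.S55.NIT (Pl)

/-! ### The abstract statement on cyclic covers of prime degree -/

section abs

variable {G : Type} [Group G] {X' X : Type} [MulAction G X'] [MulAction G X]
  {u : X' →[G] X} {σ : X' →[G] X'} {p : ℕ}

theorem Connected.smul_iterate (σ : X' →[G] X') (g : G) (k : ℕ) (y : X') :
    g • σ^[k] y = σ^[k] (g • y) := by
  induction k generalizing y with
  | zero => rfl
  | succ k ih => rw [Function.iterate_succ_apply, Function.iterate_succ_apply, ih, map_smul]

theorem Connected.pow_smul_eq {d : G} {y : X'} {k : ℕ} (h : d • y = σ^[k] y) (j : ℕ) :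
    d ^ j • y = σ^[j * k] y := by
  induction j with
  | zero => simp
  | succ j ih =>
    rw [pow_succ', mul_smul, ih, Connected.smul_iterate, h, ← Function.iterate_add_apply,
      Nat.succ_mul]

theorem Connected.iterate_mod (h : CyclicCover u σ p) (m : ℕ) (y : X') :
    σ^[m % p] y = σ^[m] y :=
  Function.IsPeriodicPt.iterate_mod_apply (h.pow y) m

/-- if some element of the stabiliser of `u y₀` moves `y₀`, the fibre is one orbit. -/
theorem Connected.exists_smul_eq (hp : p.Prime) (h : CyclicCover u σ p) {y₀ : X'} {d : G}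
    (hd : u (d • y₀) = u y₀) (hne : d • y₀ ≠ y₀) (y : X') (hy : u y = u y₀) :
    ∃ e : G, e • y₀ = y := by
  obtain ⟨k, hk, hk'⟩ := h.trans y₀ (d • y₀) hd.symm
  obtain ⟨m, -, hm'⟩ := h.trans y₀ y hy.symm
  have hk0 : k ≠ 0 := by
    rintro rfl
    exact hne hk'.symm
  have hcop : Nat.Coprime k p :=
    (Nat.coprime_comm.mp ((Nat.Prime.coprime_iff_not_dvd hp).mpr
      (Nat.not_dvd_of_pos_of_lt (Nat.pos_of_ne_zero hk0) hk)))
  obtain ⟨j, -, hj⟩ := Nat.exists_mul_mod_eq_one_of_coprime hcop hp.one_lt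
  refine ⟨d ^ (m * j), ?_⟩
  rw [Connected.pow_smul_eq hk'.symm, ← hm', ← Connected.iterate_mod h, ← Connected.iterate_mod h m]
  have e : m * j * k % p = m % p := by
    have : m * j * k = m * (k * j) := by ring
    rw [this, Nat.mul_mod, hj, mul_one, Nat.mod_mod]
  rw [e]

theorem Connected.isPretransitive (hp : p.Prime) (h : CyclicCover u σ p) {y₀ : X'} {d : G}
    (hd : u (d • y₀) = u y₀) (hne : d • y₀ ≠ y₀) :
    MulAction.IsPretransitive G
      (PreOrb u (Quotient.mk'' (u y₀) : MulAction.orbitRel.Quotient G X)) := by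
  have key : ∀ y : PreOrb u (Quotient.mk'' (u y₀) : MulAction.orbitRel.Quotient G X),
      ∃ e : G, e • y₀ = y.1 := by
    intro y
    have hy : u y.1 ∈ MulAction.orbit G (u y₀) :=
      (Set.ext_iff.1 (MulAction.orbitRel.Quotient.orbit_mk (u y₀)) _).1 y.2
    obtain ⟨g, hg⟩ := hy
    have h1 : u (g⁻¹ • y.1) = u y₀ := by
      rw [map_smul, ← hg]
      exact inv_smul_smul g _
    obtain ⟨e, he⟩ := Connected.exists_smul_eq hp h hd hne _ h1
    exact ⟨g * e, by rw [mul_smul, he, smul_inv_smul]⟩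
  refine ⟨fun y₁ y₂ => ?_⟩
  obtain ⟨e₁, h₁⟩ := key y₁
  obtain ⟨e₂, h₂⟩ := key y₂
  refine ⟨e₂ * e₁⁻¹, Subtype.ext ?_⟩
  show (e₂ * e₁⁻¹) • y₁.1 = y₂.1
  rw [← h₁, ← h₂, mul_smul, inv_smul_smul]

end abs

/-! ### Restriction of a cyclic cover along a homomorphism -/

section res

variable {G H : Type} [Group G] [Group H] (f : H →* G)
variable {X' X : Type} [MulAction G X'] [MulAction G X] {u : X' →[G] X} {σ : X' →[G] X'} {m : ℕ}

theorem Connected.resMap_iterate (σ : X' →[G] X') (k : ℕ) (x : ResSet f X') :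
    ((resMap f σ)^[k] x).val = σ^[k] x.val := by
  induction k generalizing x with
  | zero => rfl
  | succ k ih => rw [Function.iterate_succ_apply, Function.iterate_succ_apply, ih, resMap_val]

theorem Connected.cyclicCover_resMap (h : CyclicCover u σ m) :
    CyclicCover (resMap f u) (resMap f σ) m where
  pos := h.pos
  surj x := by
    obtain ⟨y, hy⟩ := h.surj x.val
    exact ⟨ResSet.of y, ResSet.ext hy⟩
  comm x := ResSet.ext (h.comm x.val)
  pow x := ResSet.ext (by rw [Connected.resMap_iterate]; exact h.pow x.val)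
  trans x y hxy := by
    obtain ⟨k, hk, hk'⟩ := h.trans x.val y.val (congrArg ResSet.val hxy)
    exact ⟨k, hk, ResSet.ext (by rw [Connected.resMap_iterate]; exact hk')⟩
  free x k hk hkm hx := h.free x.val k hk hkm (by
    rw [← Connected.resMap_iterate f, hx])

end res

/-! ### The statement -/

section K10

variable {p : ℕ} {K : Type} [Field K] [NumberField K] [Algebra K Qb]
variable {L : Type} [Field L] [NumberField L] [Algebra K L] [Algebra L Qb] [IsScalarTower K L Qb]

theorem exists_orbit_transitive (hp : p.Prime) (hp2 : p ≠ 2) (q : Nat.Primes) (a : Kˣ) (β : Lˣ)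
    (hβ : (β : L) ^ p = algebraMap K L (a : K))
    {σ : (GQ ⧸ fixG L) →[GQ] (GQ ⧸ fixG L)} (h : CyclicCover (proj K L) σ p)
    (v : Pl K) (hv : OverQ K (q : ℕ) v) (hav : a ∉ NIT.locPow K p v) :
    ∃ ω : MulAction.orbitRel.Quotient (Gv q) (ResSet (ιv q) (GQ ⧸ fixG K)),
      MulAction.IsPretransitive (Gv q) (PreOrb (resMap (ιv q) (proj K L)) ω) := by
  obtain ⟨g, hg⟩ := exists_below_smul q.2 (pl_liesOverPrime q) v hv
  have hB : (g⁻¹ • pl q).LiesOverPrime (q : ℕ) := (hg.overQ_iff q).1 hv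
  set y₀ : ResSet (ιv q) (GQ ⧸ fixG L) := ResSet.of ((g : GQ) : GQ ⧸ fixG L) with hy₀
  have hc := Connected.cyclicCover_resMap (ιv q) h
  by_cases hex : ∃ d : Gv q, resMap (ιv q) (proj K L) (d • y₀) = resMap (ιv q) (proj K L) y₀ ∧
      d • y₀ ≠ y₀
  · obtain ⟨d, hd, hne⟩ := hex
    exact ⟨_, Connected.isPretransitive hp hc hd hne⟩
  · exfalso
    push Not at hex
    apply hav
    rw [mem_locPow_iff hp hp2 q.2 hB hg a]
    refine ⟨algebraMap L Qb (β : L), ?_, ?_⟩
    · intro d' hd' hd'K
      have h1 : g * d' * g⁻¹ ∈ Dec (pl q) := by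
        rw [mem_Dec, mul_smul, mul_smul, mem_Dec.1 hd', smul_inv_smul]
      rw [← range_ιv] at h1
      obtain ⟨γ, hγ⟩ := h1
      have h2 : γ • y₀ = ResSet.of (((g * d' : GQ)) : GQ ⧸ fixG L) := by
        apply ResSet.ext
        rw [ResSet.val_smul, hγ]
        show (((g * d' * g⁻¹ * g : GQ)) : GQ ⧸ fixG L) = _
        rw [inv_mul_cancel_right]
      have h3 : resMap (ιv q) (proj K L) (γ • y₀) = resMap (ιv q) (proj K L) y₀ := by
        rw [h2]
        apply ResSet.ext
        show (((g * d' : GQ)) : GQ ⧸ fixG K) = ((g : GQ) : GQ ⧸ fixG K)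
        rw [eq_comm, QuotientGroup.eq, inv_mul_cancel_left]
        exact hd'K
      have h4 := hex γ h3
      rw [h2] at h4
      have h5 : (((g * d' : GQ)) : GQ ⧸ fixG L) = ((g : GQ) : GQ ⧸ fixG L) :=
        congrArg ResSet.val h4
      rw [eq_comm, QuotientGroup.eq, inv_mul_cancel_left] at h5
      exact h5 _
    · rw [← map_pow, hβ, ← IsScalarTower.algebraMap_apply]

end K10

end Fermat.Agent.S55.Exist
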