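/-
S55 / EXIST, node EXIST-K-3 (helper11): the field `K(a^(1/p))` in the language of block DICT.
-/
import Fermat.Agent.S55.Exist.Kum.Defs
import Fermat.Agent.S55.NIT.Assembly

set_option autoImplicit false
set_option linter.unusedSectionVars false

namespace Fermat.Agent.S55.Exist

open IsDedekindDomain NumberField
open Fermat.Agent.S55 Fermat.Agent.S55.Sym Fermat.Agent.S55.Dict Fermat.Agent.S55.Exist
open Fermat.Agent.S55.NIT (Pl)
open Polynomial IntermediateField

section K3

variable {p : ℕ} {K : Type} [Field K] [NumberField K] [Algebra K Qb] {ζ : K}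

/-- existence of the exponent in the definition of `kumChar` (local copy, independent of the file
`Kum/Char.lean`). -/
theorem kumField_exists (hp : p.Prime) (hζ : IsPrimitiveRoot ζ p) (a : Kˣ) {g : GQ}
    (hg : g ∈ fixG K) :
    ∃ j : ZMod p, ∀ α : Qb, α ^ p = algebraMap K Qb (a : K) →
      g α = algebraMap K Qb ζ ^ j.val * α := by
  have : NeZero p := ⟨hp.ne_zero⟩
  have hζ' : IsPrimitiveRoot (algebraMap K Qb ζ) p :=
    hζ.map_of_injective (algebraMap K Qb).injective
  obtain ⟨α₀, hα₀⟩ := IsAlgClosed.exists_pow_nat_eq (algebraMap K Qb (a : K)) hp.pos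
  have h0 : α₀ ≠ 0 := by
    rintro rfl
    rw [zero_pow hp.ne_zero] at hα₀
    exact a.ne_zero ((map_eq_zero _).1 hα₀.symm)
  have h1 : (g α₀ / α₀) ^ p = 1 := by
    rw [div_pow, ← map_pow, hα₀, hg (a : K), div_self]
    exact (_root_.map_ne_zero _).2 a.ne_zero
  obtain ⟨i, hi, hi'⟩ := hζ'.eq_pow_of_pow_eq_one h1
  refine ⟨(i : ZMod p), fun α hα => ?_⟩
  rw [ZMod.val_natCast_of_lt hi]
  have h2 : (α / α₀) ^ p = 1 := by
    rw [div_pow, hα, hα₀, div_self]
    exact (_root_.map_ne_zero _).2 a.ne_zero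
  obtain ⟨k, -, hk⟩ := hζ'.eq_pow_of_pow_eq_one h2
  have e1 : α = algebraMap K Qb ζ ^ k * α₀ := by rw [hk, div_mul_cancel₀ _ h0]
  have e2 : g α₀ = algebraMap K Qb ζ ^ i * α₀ := by rw [hi', div_mul_cancel₀ _ h0]
  rw [e1, map_mul, map_pow, hg ζ, e2]
  ring

/-- local copy of `kumChar_eq_zero_iff`. -/
theorem kumField_eq_zero_iff (hp : p.Prime) (hζ : IsPrimitiveRoot ζ p) (a : Kˣ) {g : GQ}
    (hg : g ∈ fixG K) {α : Qb} (hα : α ^ p = algebraMap K Qb (a : K)) :
    kumChar p K ζ a g = 0 ↔ g α = α := by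
  have : NeZero p := ⟨hp.ne_zero⟩
  have hζ' : IsPrimitiveRoot (algebraMap K Qb ζ) p :=
    hζ.map_of_injective (algebraMap K Qb).injective
  have h0 : α ≠ 0 := by
    rintro rfl
    rw [zero_pow hp.ne_zero] at hα
    exact a.ne_zero ((map_eq_zero _).1 hα.symm)
  have hex := kumField_exists hp hζ a hg
  have hspec : g α = algebraMap K Qb ζ ^ (kumChar p K ζ a g).val * α := by
    unfold kumChar
    rw [dif_pos hex]
    exact hex.choose_spec α hα
  constructor
  · intro h
    rw [hspec, h, ZMod.val_zero, pow_zero, one_mul]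
  · intro h
    rw [h] at hspec
    have h1 : algebraMap K Qb ζ ^ (kumChar p K ζ a g).val = 1 :=
      mul_right_cancel₀ h0 (by rw [one_mul]; exact hspec.symm)
    have h2 := (hζ'.pow_eq_one_iff_dvd _).1 h1
    have h3 : (kumChar p K ζ a g).val = 0 := Nat.eq_zero_of_dvd_of_lt h2 (ZMod.val_lt _)
    exact (ZMod.val_eq_zero _).1 h3

/-- an automorphism fixing `K` and `α` fixes `K(α)`. -/
theorem fix_adjoin_simple {g : GQ} (hg : g ∈ fixG K) {α : Qb} (hα : g α = α)
    (x : K⟮α⟯) : g (x : Qb) = x := by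
  let g' : Qb →ₐ[K] Qb := { (g : Qb →+* Qb) with commutes' := fun r => hg r }
  have h : g'.comp (K⟮α⟯).val = (K⟮α⟯).val := by
    apply IntermediateField.adjoin_algHom_ext
    intro y hy
    rw [Set.mem_singleton_iff] at hy
    subst hy
    exact hα
  exact DFunLike.congr_fun h x

theorem kum_adjoin_simple (hp : p.Prime) (hp2 : p ≠ 2) (hζ : IsPrimitiveRoot ζ p) (a : K)
    (ha : ∀ c : K, c ^ p ≠ a) {α : Qb} (hα : α ^ p = algebraMap K Qb a) :
    letI : Module.Finite K K⟮α⟯ := IntermediateField.adjoin.finiteDimensional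
      ⟨X ^ p - C a, monic_X_pow_sub_C a hp.ne_zero, by simp [hα]⟩
    letI : NumberField K⟮α⟯ := NumberField.of_module_finite K K⟮α⟯
    NIT.Kum K K⟮α⟯ p := by
  have hint : IsIntegral K α := ⟨X ^ p - C a, monic_X_pow_sub_C a hp.ne_zero, by simp [hα]⟩
  have hirr : Irreducible (X ^ p - C a) := X_pow_sub_C_irreducible_of_prime hp ha
  have hmin : minpoly K α = X ^ p - C a :=
    (minpoly.eq_of_irreducible_of_monic hirr (by simp [hα]) (monic_X_pow_sub_C a hp.ne_zero)).symm
  have hdeg : Module.finrank K K⟮α⟯ = p := by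
    rw [IntermediateField.adjoin.finrank hint, hmin, natDegree_X_pow_sub_C]
  have : Module.Finite K K⟮α⟯ := IntermediateField.adjoin.finiteDimensional hint
  have hprim : (primitiveRoots p K).Nonempty := ⟨ζ, (mem_primitiveRoots hp.pos).2 hζ⟩
  have htop : K⟮(AdjoinSimple.gen K α)⟯ = ⊤ := by
    apply IntermediateField.lift_injective
    rw [IntermediateField.lift_adjoin, IntermediateField.lift_top, Set.image_singleton]
    rfl
  have hgen : (AdjoinSimple.gen K α) ^ p = algebraMap K K⟮α⟯ a := by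
    apply Subtype.ext
    exact hα
  have : IsSplittingField K K⟮α⟯ (X ^ p - C a) := by
    have := isSplittingField_X_pow_sub_C_of_root_adjoin_eq_top (K := K) (L := K⟮α⟯)
      (by rw [hdeg]; exact hprim) (a := a) (α := AdjoinSimple.gen K α) (by rw [hdeg]; exact hgen) htop
    rwa [hdeg] at this
  exact ⟨hp, hp2, isGalois_of_isSplittingField_X_pow_sub_C hprim hirr _, hdeg, ζ, hζ⟩

theorem exists_kummer_field (hp : p.Prime) (hp2 : p ≠ 2) (hζ : IsPrimitiveRoot ζ p) (a : Kˣ)
    (ha : ∀ c : Kˣ, c ^ p ≠ a) :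
    ∃ (L : Type) (_ : Field L) (_ : NumberField L) (_ : Algebra K L) (_ : Algebra L Qb)
      (_ : IsScalarTower K L Qb) (β : Lˣ), NIT.Kum K L p ∧
        (β : L) ^ p = algebraMap K L (a : K) ∧
        ∀ g : GQ, g ∈ fixG L ↔ g ∈ fixG K ∧ kumChar p K ζ a g = 0 := by
  obtain ⟨α, hα⟩ := IsAlgClosed.exists_pow_nat_eq (algebraMap K Qb (a : K)) hp.pos
  have hα0 : α ≠ 0 := by
    rintro rfl
    rw [zero_pow hp.ne_zero] at hα
    exact a.ne_zero ((map_eq_zero _).1 hα.symm)
  have ha' : ∀ c : K, c ^ p ≠ (a : K) := by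
    intro c hc
    have hc0 : c ≠ 0 := by
      rintro rfl
      rw [zero_pow hp.ne_zero] at hc
      exact a.ne_zero hc.symm
    exact ha (Units.mk0 c hc0) (Units.ext hc)
  have hint : IsIntegral K α := ⟨X ^ p - C (a : K), monic_X_pow_sub_C _ hp.ne_zero, by simp [hα]⟩
  have : Module.Finite K K⟮α⟯ := IntermediateField.adjoin.finiteDimensional hint
  refine ⟨K⟮α⟯, inferInstance, NumberField.of_module_finite K K⟮α⟯, inferInstance, inferInstance,
    inferInstance, Units.mk0 (AdjoinSimple.gen K α) ?_, kum_adjoin_simple hp hp2 hζ a ha' hα,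
    Subtype.ext hα, fun g => ⟨fun h => ?_, fun h x => ?_⟩⟩
  · intro h
    exact hα0 (congrArg Subtype.val h)
  · have hK : g ∈ fixG K := fun x => h (algebraMap K K⟮α⟯ x)
    exact ⟨hK, (kumField_eq_zero_iff hp hζ a hK hα).2 (h (AdjoinSimple.gen K α))⟩
  · exact fix_adjoin_simple h.1 ((kumField_eq_zero_iff hp hζ a h.1 hα).1 h.2) x

end K3

end Fermat.Agent.S55.Exist
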