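/-
S55 / block EXIST-K-6 : `G_q`-invariants are the invariants of the decomposition group; formal
properties of the comparison `toLoc`.
-/
import Fermat.Agent.S55.Exist.Kum.Defs
import Fermat.Agent.S55.Bridge.LocalImage

set_option autoImplicit false

namespace Fermat.Agent.S55.Exist

open IsDedekindDomain NumberField
open Fermat.Agent.S55 Fermat.Agent.S55.Sym Fermat.Agent.S55.Dict Fermat.Agent.S55.Exist

variable (q : Nat.Primes)

theorem range_ιv : (ιv q).range = Dec (plc q) := by
  have : Fact (q : ℕ).Prime := ⟨q.2⟩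
  exact Fermat.Agent.S55.Bridge.range_localGaloisToGlobal (q : ℕ)

theorem plc_liesOverPrime : (plc q).LiesOverPrime (q : ℕ) := by
  have : Fact (q : ℕ).Prime := ⟨q.2⟩
  exact Fermat.Agent.S55.Bridge.padicPlace_liesOverPrime (q : ℕ)

variable {X Y : Type} [MulAction GQ X] [MulAction GQ Y]

theorem toLoc_bijective : Function.Bijective (toLoc (ιv q) X Kx) := by
  constructor
  · intro f g h
    apply IndMod.ext
    intro x
    have h1 := congrArg (fun F : IndMod (ResSet (ιv q) X) (KL q) => F (ResSet.of x)) h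
    exact (ResMod.toRes (ιv q)).injective h1
  · intro F
    refine ⟨IndMod.of fun x => (ResMod.toRes (ιv q)).symm (F (ResSet.of x)), ?_⟩
    ext x
    show ResMod.toRes (ιv q) ((ResMod.toRes (ιv q)).symm (F (ResSet.of x.val))) = F x
    rw [AddEquiv.apply_symm_apply]

theorem toLoc_mem_inv0_iff (f : IndMod X Kx) :
    toLoc (ιv q) X Kx f ∈ inv0 (Gv q) (IndMod (ResSet (ιv q) X) (KL q)) ↔
      f ∈ invD (Dec (plc q)) X := by
  rw [mem_inv0, mem_invD, ← range_ιv]
  constructor
  · rintro h _ ⟨g, rfl⟩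
    apply (toLoc_bijective q).1
    rw [toLoc_smul]
    exact h g
  · intro h g
    rw [← toLoc_smul, h _ ⟨g, rfl⟩]

theorem toLoc_push [Finite Y] (u : Y →[GQ] X) (f : IndMod Y Kx) :
    toLoc (ιv q) X Kx (IndMod.push Kx u f) =
      IndMod.push (KL q) (resMap (ιv q) u) (toLoc (ιv q) Y Kx f) := by
  ext x
  rw [IndMod.push_apply]
  show ResMod.toRes (ιv q) (IndMod.push Kx u f x.val) = _
  rw [IndMod.push_apply]
  let e : {y : Y // u y = x.val} ≃ {y : ResSet (ιv q) Y // resMap (ιv q) u y = x} :=
    { toFun := fun y => ⟨ResSet.of y.1, ResSet.ext y.2⟩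
      invFun := fun y => ⟨y.1.val, congrArg ResSet.val y.2⟩
      left_inv := fun _ => rfl
      right_inv := fun _ => rfl }
  rw [← finsum_comp_equiv e]
  exact AddMonoidHom.map_finsum (f := fun y : {y : Y // u y = x.val} => f y.1)
    (ResMod.toRes (ιv q)).toAddMonoidHom (Set.toFinite _)

end Fermat.Agent.S55.Exist
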