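/-
S55 / EXIST-K-9 (owner helper147): local non-degeneracy of the symbol of a connected cyclic cover of
degree `p`; only `LocPkg` and SYM.
-/
import Fermat.Agent.S55.Exist.Kum.Defs
import Fermat.Agent.S55.Coh.Theta
import Fermat.Agent.S55.Coh.PPrimary
import Fermat.Agent.S55.Sym.ThetaSymb

set_option autoImplicit false

namespace Fermat.Agent.S55.Exist

open IsDedekindDomain NumberField
open Fermat.Agent.S55 Fermat.Agent.S55.Sym Fermat.Agent.S55.Dict Fermat.Agent.S55.Exist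

private theorem locNondeg_nsmul_mk (p : ℕ) (hp : 0 < p) : p • QZ.mk (1 / (p : ℚ)) = 0 := by
  rw [← map_nsmul]
  refine (QuotientAddGroup.eq_zero_iff _).2 ⟨1, ?_⟩
  have : (p : ℚ) ≠ 0 := by exact_mod_cast hp.ne'
  simp [this]

private theorem locNondeg_mk_ne_zero (p : ℕ) (hp : 1 < p) : QZ.mk (1 / (p : ℚ)) ≠ 0 := by
  intro h
  obtain ⟨n, hn⟩ := (QuotientAddGroup.eq_zero_iff _).1 h
  have hp0 : (p : ℚ) ≠ 0 := by
    have : p ≠ 0 := by omega
    exact_mod_cast this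
  have h1 : (n : ℚ) = 1 / (p : ℚ) := hn
  have h2 : (n : ℚ) * (p : ℚ) = 1 := by
    rw [h1]
    field_simp
  have h3 : n * (p : ℤ) = 1 := by exact_mod_cast h2
  have h4 : (p : ℤ) ∣ 1 := Dvd.intro_left n h3
  have h5 : (p : ℤ) ≤ 1 := Int.le_of_dvd one_pos h4
  omega

section K9

variable {p : ℕ} [NeZero p] {q : Nat.Primes}
variable {O' O : Type} [MulAction (Gv q) O'] [MulAction (Gv q) O] [Finite O'] [Finite O]
  [SmoothSet (lvlLoc q) O'] [SmoothSet (lvlLoc q) O] [MulAction.IsPretransitive (Gv q) O']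
  [MulAction.IsPretransitive (Gv q) O] [Nonempty O]

theorem exists_invY_symb_ne_zero (hp : p.Prime) (L : LocPkg p q) {u : O' →[Gv q] O}
    {σ : O' →[Gv q] O'} (h : CyclicCover u σ p)
    {c : (Fin 1 → Gv q) → IndMod O (Triv (ZMod p))} (hc : IsCoverCocycle u σ p c)
    (hz : c ∈ Zsm (lvlLoc q) (IndMod O (Triv (ZMod p))) 1) :
    ∃ y : inv0 (Gv q) (IndMod O (KL q)),
      invY q O L.inv (symb (lvlLoc q) (Hsm.mk (lvlLoc q) _ 1 ⟨c, hz⟩) y) ≠ 0 := by
  have hmem : QZ.mk (1 / (p : ℚ)) ∈ pPrimary p QZ :=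
    ⟨1, by rw [pow_one]; exact locNondeg_nsmul_mk p hp.pos⟩
  obtain ⟨z, hzp, hzinv⟩ := L.L3surj O _ hmem
  have hpull : Hsm.map (IndMod.pull (KL q) u) 2 z = 0 := by
    apply L.L3inj O' _ (map_mem_pPrimary _ hzp)
    have h1 : invY q O' L.inv (Hsm.map (IndMod.pull (KL q) u) 2 z)
        = invY q O L.inv (Hsm.map (IndMod.push (KL q) u) 2 (Hsm.map (IndMod.pull (KL q) u) 2 z)) := by
      show L.inv (Hsm.map (IndMod.sum O' (KL q)) 2 _) = L.inv (Hsm.map (IndMod.sum O (KL q)) 2 _)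
      rw [← Hsm.map_comp' (χ := IndMod.sum O' (KL q)) (ψ := IndMod.sum O (KL q))
        (φ := IndMod.push (KL q) u) (fun a => (IndMod.sum_push u a).symm)]
    rw [h1, ← Hsm.map_comp, Hsm.map_nsmul' (χ := (IndMod.push (KL q) u).comp (IndMod.pull (KL q) u)) p
      (fun a => h.push_pull a) 2, map_nsmul, hzinv]
    exact locNondeg_nsmul_mk p hp.pos
  obtain ⟨x, hx⟩ := (h.exists_theta_eq_iff (lvlLoc q) (KL q) 0 (fun y => L.L1 O' y) z).2 hpull
  refine ⟨Hsm.H0equiv x, ?_⟩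
  have h2 := theta_eq_neg_symb (𝓝 := lvlLoc q) (A := KL q) h hc hz (Hsm.H0equiv x)
  rw [AddEquiv.symm_apply_apply, hx] at h2
  have h3 : symb (lvlLoc q) (Hsm.mk (lvlLoc q) _ 1 ⟨c, hz⟩) (Hsm.H0equiv x) = - z := by
    rw [h2, neg_neg]
  rw [h3, map_neg, hzinv, neg_ne_zero]
  exact locNondeg_mk_ne_zero p hp.one_lt

end K9

end Fermat.Agent.S55.Exist
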