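/-
S55 / EXIST-K-11 : semi-local non-degeneracy of the symbols `qh` (owner helper205).
-/
import Fermat.Agent.S55.Exist.Kum.Open
import Fermat.Agent.S55.Exist.Kum.Field
import Fermat.Agent.S55.Exist.Kum.Class
import Fermat.Agent.S55.Exist.Kum.GSym
import Fermat.Agent.S55.Exist.Kum.InvDec
import Fermat.Agent.S55.Exist.Kum.LocNondeg
import Fermat.Agent.S55.Exist.Kum.Connected
import Fermat.Agent.S55.Sym.ResCover
import Fermat.Agent.S55.Dict.Dense.Mult
import Fermat.Agent.S55.Dict.RootFixed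
import Fermat.Agent.S55.Sym.Basic
import Fermat.Agent.S55.Sym.Nat
import Fermat.Agent.S55.Sym.Orbit
import Fermat.Agent.S55.Sym.CoverCocycle

set_option autoImplicit false

namespace Fermat.Agent.S55.Exist

open IsDedekindDomain NumberField
open Fermat.Agent.S55 Fermat.Agent.S55.Sym Fermat.Agent.S55.Dict Fermat.Agent.S55.Exist
open Fermat.Agent.S55.NIT (Pl)

section K11

/-- `K` is dense in `∏_{v ∣ q} K_v^h` modulo `p`-th powers. -/
theorem Nondeg.exists_globLoc_add_nsmul {p : ℕ} {K : Type} [Field K] [NumberField K] [Algebra K Qb]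
    (hp : p.Prime) (hp2 : p ≠ 2) (q : Nat.Primes)
    (y : inv0 (Gv q) (IndMod (ResSet (ιv q) (GQ ⧸ fixG K)) (KL q))) :
    ∃ (b : Kˣ) (z : inv0 (Gv q) (IndMod (ResSet (ιv q) (GQ ⧸ fixG K)) (KL q))),
      y = globLoc K q b + p • z := by
  obtain ⟨f, hfy⟩ := (toLoc_bijective q (X := GQ ⧸ fixG K)).surjective
    (y : IndMod (ResSet (ιv q) (GQ ⧸ fixG K)) (KL q))
  have hf : f ∈ invD (Dec (plc q)) (GQ ⧸ fixG K) :=
    (toLoc_mem_inv0_iff q f).1 (by rw [hfy]; exact y.2)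
  obtain ⟨b, hb⟩ := exists_glob_close q.2 (plc_liesOverPrime q) f hf 2
  have hfb : f - glob K b ∈ invD (Dec (plc q)) (GQ ⧸ fixG K) :=
    sub_mem hf (glob_mem_invD K _ b)
  obtain ⟨f₂, hf₂, e⟩ :=
    exists_nsmul_eq_of_close hp hp2 q.2 (plc_liesOverPrime q) (f - glob K b) hfb hb
  refine ⟨b, ⟨toLoc (ιv q) (GQ ⧸ fixG K) Kx f₂, (toLoc_mem_inv0_iff q f₂).2 hf₂⟩, ?_⟩
  apply Subtype.ext
  have e2 : f = glob K b + p • f₂ := by rw [e]; abel
  show (y : IndMod (ResSet (ιv q) (GQ ⧸ fixG K)) (KL q)) =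
    toLoc (ιv q) (GQ ⧸ fixG K) Kx (glob K b) + p • toLoc (ιv q) (GQ ⧸ fixG K) Kx f₂
  rw [← hfy, e2, map_add, map_nsmul]

/-- the symbol with an element supported on one orbit. -/
theorem Nondeg.inv_sum_symb_push {p : ℕ} [NeZero p] {q : Nat.Primes}
    (inv : Hsm (lvlLoc q) (KL q) 2 →+ QZ) {Y : Type} [MulAction (Gv q) Y] [Finite Y]
    [SmoothSet (lvlLoc q) Y] (ω : MulAction.orbitRel.Quotient (Gv q) Y)
    (χ : Hsm (lvlLoc q) (IndMod Y (Triv (ZMod p))) 1)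
    (y : inv0 (Gv q) (IndMod ω.orbit (KL q))) :
    inv (Hsm.map (IndMod.sum Y (KL q)) 2
      (symb (lvlLoc q) χ (inv0.map (IndMod.push (KL q) (orbitIncl ω)) y))) =
    invY q ω.orbit inv
      (symb (lvlLoc q) (Hsm.map (IndMod.pull (Triv (ZMod p)) (orbitIncl ω)) 1 χ) y) := by
  rw [symb_push, ← Hsm.map_comp' (χ := IndMod.sum ω.orbit (KL q))
    (fun a => (IndMod.sum_push _ a).symm)]
  rfl

variable {p : ℕ} [NeZero p] {K : Type} [Field K] [NumberField K] [Algebra K Qb] {ζ : K}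
  [SmoothSet lvlAll (GQ ⧸ fixG K)]

theorem qh_nondeg (hp : p.Prime) (hp2 : p ≠ 2) (hζ : IsPrimitiveRoot ζ p)
    (L : ∀ q : Nat.Primes, LocPkg p q) (q : Nat.Primes) (a : Kˣ)
    (h : ∀ b : Kˣ, qh p K ζ L q a b = 0) (v : Pl K) (hv : OverQ K (q : ℕ) v) :
    a ∈ NIT.locPow K p v := by
  by_contra hav
  have ha : ∀ c : Kˣ, c ^ p ≠ a := by
    rintro c rfl
    exact hav (NIT.mem_locPow.2 fun n => ⟨c, by rw [div_self']; exact one_mem _⟩)
  obtain ⟨F, iF1, iF2, iF3, iF4, iF5, β, -, hβ, hF⟩ := exists_kummer_field hp hp2 hζ a ha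
  obtain ⟨σ, hcov, hcoc⟩ := exists_cover_kum hp hζ a ha hF
  obtain ⟨ω, hω⟩ := exists_orbit_transitive hp hp2 q a β hβ hcov v hv hav
  have hcov' := cyclicCover_resMap (ιv q) hcov
  have hcoc' := isCoverCocycle_resMap (ιv q) hcoc
  have hz' := IsCoverCocycle.mem_Zsm (𝓝 := lvlLoc q) hcov' hcoc'
  have hcovω := cyclicCover_preOrb hcov' ω
  have hcocω := IsCoverCocycle.preOrb hcov' hcoc' ω
  have hzω := IsCoverCocycle.mem_Zsm (𝓝 := lvlLoc q) hcovω hcocω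
  have hne : Nonempty ω.orbit := by
    induction ω using Quotient.inductionOn' with
    | h y => exact ⟨⟨y, MulAction.orbitRel.Quotient.mem_orbit.2 rfl⟩⟩
  obtain ⟨y, hy⟩ := exists_invY_symb_ne_zero hp (L q) hcovω hcocω hzω
  -- the Kummer class, locally
  have hkum : kumLoc p K ζ q a = Hsm.mk (lvlLoc q) _ 1 ⟨_, hz'⟩ := by
    rw [kumLoc, kumClass_eq_mk hp hζ a]
    exact locHTriv_mk _ _ _ _ _ hz'
  obtain ⟨b, z, hbz⟩ := Nondeg.exists_globLoc_add_nsmul (K := K) hp hp2 q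
    (inv0.map (IndMod.push (KL q) (orbitIncl ω)) y)
  apply hy
  have h1 := (qh_eq_zero_iff L q a b).1 (h b)
  rw [locA_gsym] at h1
  have h2 : symb (lvlLoc q) (kumLoc p K ζ q a) (globLoc K q b) =
      symb (lvlLoc q) (kumLoc p K ζ q a) (inv0.map (IndMod.push (KL q) (orbitIncl ω)) y) := by
    rw [hbz, symb_add_right, symb_nsmul_right, nsmul_symb, add_zero]
  rw [h2, Nondeg.inv_sum_symb_push, hkum] at h1
  exact h1

end K11

end Fermat.Agent.S55.Exist
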