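/-
S55 / EXIST, node EXIST-K-12 (architect helper115, proofs helper109): the instance `QSymb`.
-/
import Fermat.Agent.S55.Exist.Kum.Defs
import Fermat.Agent.S55.Exist.Kum.QZ
import Fermat.Agent.S55.Exist.Kum.GSym
import Fermat.Agent.S55.Exist.Kum.Norm
import Fermat.Agent.S55.Exist.Kum.Nondeg

set_option autoImplicit false

namespace Fermat.Agent.S55.Exist

open IsDedekindDomain NumberField
open Fermat.Agent.S55 Fermat.Agent.S55.Sym Fermat.Agent.S55.Dict Fermat.Agent.S55.Exist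
open Fermat.Agent.S55.NIT (Pl)

section K12

variable {p : ℕ} [NeZero p] {K : Type} [Field K] [NumberField K] [Algebra K Qb] {ζ : K}
  [SmoothSet lvlAll (GQ ⧸ fixG K)]

/-- the localisation at `q` of the global symbol vanishes if `b` is a local norm at all `v ∣ q` -/
theorem locA_gsym_eq_zero_of_norm (hp : p.Prime) (hp2 : p ≠ 2) (hζ : IsPrimitiveRoot ζ p)
    (q : Nat.Primes) (a b : Kˣ)
    (h : ∀ v : Pl K, OverQ K (q : ℕ) v → b ∈ NIT.Inst.nrmD K p a v) :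
    locA Kx q 2 (gsym p K ζ a b) = 0 := by
  rw [locA_gsym, symb_kumLoc_eq_zero_of_norm hp hp2 hζ q a b h, map_zero]

theorem qh_norm (hp : p.Prime) (hp2 : p ≠ 2) (hζ : IsPrimitiveRoot ζ p)
    (L : ∀ q : Nat.Primes, LocPkg p q) (q : Nat.Primes) (a b : Kˣ)
    (h : ∀ v : Pl K, OverQ K (q : ℕ) v → b ∈ NIT.Inst.nrmD K p a v) : qh p K ζ L q a b = 0 := by
  rw [qh, locA_gsym_eq_zero_of_norm hp hp2 hζ q a b h, map_zero, fromQZ_zero hp.pos]

theorem qh_recip (hp : p.Prime) (hp2 : p ≠ 2) (hζ : IsPrimitiveRoot ζ p)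
    (L : ∀ q : Nat.Primes, LocPkg p q) (hB3 : NeedB3Q p L) (a b : Kˣ) (R : Finset Nat.Primes)
    (h : ∀ q : Nat.Primes, q ∉ R → ∀ v : Pl K, OverQ K (q : ℕ) v → b ∈ NIT.Inst.nrmD K p a v) :
    ∑ q ∈ R, qh p K ζ L q a b = 0 := by
  have h1 : ∀ q ∈ R, p • (L q).inv (locA Kx q 2 (gsym p K ζ a b)) = 0 := by
    intro q _
    rw [← map_nsmul, ← map_nsmul, nsmul_gsym, map_zero, map_zero]
  have h2 := hB3 (gsym p K ζ a b) (nsmul_gsym a b) R fun q hq =>
    locA_gsym_eq_zero_of_norm hp hp2 hζ q a b (h q hq)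
  have h3 := fromQZ_sum hp.pos R (fun q => (L q).inv (locA Kx q 2 (gsym p K ζ a b))) h1
  rw [h2, fromQZ_zero hp.pos] at h3
  exact h3.symm

theorem exists_qSymb (hp : p.Prime) (hp2 : p ≠ 2) (hζ : IsPrimitiveRoot ζ p)
    (L : ∀ q : Nat.Primes, LocPkg p q) (hB3 : NeedB3Q p L) (D : NIT.SI.LocData p K)
    (hpow : ∀ v, D.pow v = NIT.locPow K p v) (hnrm : ∀ a v, D.nrm a v = NIT.Inst.nrmD K p a v) :
    Nonempty (QSymb p K D) := by
  refine ⟨{
    h := qh p K ζ L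
    mul_left := qh_mul_left hp hζ L
    mul_right := qh_mul_right L
    norm := ?_
    nondeg := ?_
    recip := ?_ }⟩
  · intro q a b h
    exact qh_norm hp hp2 hζ L q a b fun v hv => hnrm a v ▸ h v hv
  · intro q a h v hv
    rw [hpow]
    exact qh_nondeg hp hp2 hζ L q a h v hv
  · intro a b R h
    refine qh_recip hp hp2 hζ L hB3 a b R fun q hq v hv => ?_
    obtain ⟨h1, h2, h3⟩ := h q hq v hv
    rw [← hnrm]
    exact D.unit_le_nrm a v h1 h2 h3

end K12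

end Fermat.Agent.S55.Exist
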