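/-
S55 / EXIST-K-14 : TOP EXPORT OF EXIST LAYER B.  The place-wise symbols `SymbData` for the concrete local
data of a number field `K ⊆ ℚ̄` containing `μ_p`, from the local packages and the Brauer package.
-/
import Fermat.Agent.S55.Exist.Kum.Instance
import Fermat.Agent.S55.Exist.PlaceSymb
import Fermat.Agent.S55.Exist.Glue

set_option autoImplicit false

namespace Fermat.Agent.S55.Exist

theorem exists_symbData_of {p : ℕ} (hp : p.Prime) (hp2 : p ≠ 2) {K : Type} [Field K] [NumberField K]
    [Algebra K Qb] {ζ : K} (hζ : IsPrimitiveRoot ζ p) (L : ∀ q : Nat.Primes, LocPkg p q)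
    (B : BrPkg p L) : Nonempty (SymbData p K (NIT.Inst.locData hp hp2 hζ)) := by
  haveI : NeZero p := ⟨hp.ne_zero⟩
  obtain ⟨Q⟩ := exists_qSymb hp hp2 hζ L (needB3Q_of_brPkg B) (NIT.Inst.locData hp hp2 hζ)
    (fun _ => rfl) (fun _ _ => rfl)
  exact exists_symbData (weakApprox_locData hp hp2 hζ) Q

end Fermat.Agent.S55.Exist
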